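import Fermat.Agent.S27.Pic
import Fermat.Agent.S27.LSpace.IsFF1
import Fermat.Agent.RR.Kaehler

/-!
# S17 / Quad 2 : the Riemann-Roch lemmas of the global part
-/

set_option autoImplicit false

open AlgebraicCurve

namespace Fermat.Agent.S17.Quad

open S27

variable {K F : Type*} [Field K] [Field F] [Algebra K F] [IsAlgClosed K] [CharZero K] [IsFF K F]

theorem linEq_iff_divOf {D Z : Divisor K F} :
    LinEq D Z ↔ ∃ f : F, f ≠ 0 ∧ D = Z + RR.divOf K f := by
  unfold LinEq
  rw [Divisor.mem_principal]
  constructor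
  · rintro ⟨f, hf, h⟩
    refine ⟨f, hf, ?_⟩
    ext v
    have := h v
    rw [Finsupp.sub_apply] at this
    rw [Finsupp.add_apply, RR.divOf_apply]
    omega
  · rintro ⟨f, hf, rfl⟩
    refine ⟨f, hf, fun v => ?_⟩
    rw [add_sub_cancel_left, RR.divOf_apply]

/-- a divisor of degree `≥ g` is linearly equivalent to an effective divisor. -/
theorem exists_effective_linEq {Z : Divisor K F} (hZ : (genusFF K F : ℤ) ≤ Divisor.degree Z) :
    ∃ D : Divisor K F, 0 ≤ D ∧ LinEq D Z := by
  have h1 := RR.riemann_inequality Z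
  have h2 : 0 < RR.ell Z := by omega
  obtain ⟨f, hf0, hf⟩ := RR.ell_pos_iff.mp h2
  rw [RR.mem_riemannRochSpace_iff_divOf hf0] at hf
  exact ⟨RR.divOf K f + Z, hf, linEq_iff_divOf.mpr ⟨f, hf0, add_comm _ _⟩⟩

/-- if `l(Z) = 1` the effective divisor in the class of `Z` is unique. -/
theorem effective_unique {Z D D' : Divisor K F} (hZ : RR.ell Z = 1) (hD : 0 ≤ D) (hD' : 0 ≤ D')
    (h : LinEq D Z) (h' : LinEq D' Z) : D = D' := by
  obtain ⟨f, hf0, rfl⟩ := linEq_iff_divOf.mp h
  obtain ⟨f', hf'0, rfl⟩ := linEq_iff_divOf.mp h'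
  have hf : f ∈ riemannRochSpace Z := by
    rw [RR.mem_riemannRochSpace_iff_divOf hf0, add_comm]; exact hD
  have hf' : f' ∈ riemannRochSpace Z := by
    rw [RR.mem_riemannRochSpace_iff_divOf hf'0, add_comm]; exact hD'
  have hne : (⟨f, hf⟩ : riemannRochSpace Z) ≠ 0 := fun h0 => hf0 (congrArg Subtype.val h0)
  obtain ⟨c, hc⟩ := (finrank_eq_one_iff_of_nonzero' (⟨f, hf⟩ : riemannRochSpace Z) hne).mp hZ
    ⟨f', hf'⟩
  have hc' : f' = algebraMap K F c * f := by
    have := congrArg Subtype.val hc
    simp only [Submodule.coe_smul] at this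
    rw [← this, Algebra.smul_def]
  have hc0 : algebraMap K F c ≠ 0 := by
    intro h0
    rw [h0, zero_mul] at hc'
    exact hf'0 hc'
  rw [hc', RR.divOf_mul K hc0 hf0, RR.divOf_algebraMap, zero_add]

theorem ell_eq_of_linEq {D Z : Divisor K F} (h : LinEq D Z) : RR.ell D = RR.ell Z := by
  obtain ⟨f, hf0, rfl⟩ := linEq_iff_divOf.mp h
  exact RR.ell_add_divOf Z hf0

/-- an effective divisor containing `|U|` distinct points has degree `≥ |U|`. -/
theorem card_le_degree {ι : Type*} (R : ι → Place K F) (hR : Function.Injective R)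
    {G : Divisor K F} (hG : 0 ≤ G) (U : Finset ι) (hU : ∀ j ∈ U, 1 ≤ G (R j)) :
    (U.card : ℤ) ≤ Divisor.degree G := by
  classical
  rw [RR.degree_eq_sum, Finsupp.sum]
  have h1 : U.image R ⊆ G.support := by
    intro v hv
    obtain ⟨j, hj, rfl⟩ := Finset.mem_image.mp hv
    rw [Finsupp.mem_support_iff]
    have := hU j hj
    omega
  have h2 : ∑ v ∈ U.image R, G v ≤ ∑ v ∈ G.support, G v :=
    Finset.sum_le_sum_of_subset_of_nonneg h1 fun v _ _ => hG v
  have h3 : (U.image R).card • (1 : ℤ) ≤ ∑ v ∈ U.image R, G v := by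
    apply Finset.card_nsmul_le_sum
    intro v hv
    obtain ⟨j, hj, rfl⟩ := Finset.mem_image.mp hv
    exact hU j hj
  rw [Finset.card_image_of_injective U hR] at h3
  simp only [nsmul_eq_mul, mul_one] at h3
  omega

theorem degree_sum_single {ι : Type*} (R : ι → Place K F) (T : Finset ι) :
    Divisor.degree (∑ j ∈ T, Finsupp.single (R j) (1 : ℤ) : Divisor K F) = T.card := by
  rw [map_sum, Finset.sum_congr rfl fun j _ => RR.degree_single (R j) 1]
  simp

/-- **non special translates.**  `R j`, `j < 2 g - 1`, distinct places.  For every divisor `Z` of degree `0`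
there are `g` of them with `l(Z + ∑_T R j) = 1`.

Proof.  `W` canonical (`RR.exists_canonical`).  `l(Z + E) = 1 + l(W - Z - E)` for `deg E = g`.  Greedy: as long
as `L(W - Z - ∑_T R j) ≠ 0` pick `f ≠ 0` in it; the effective divisor `div f + W - Z - ∑_T R j` has degree
`2 g - 2 - |T|`, so one of the `2 g - 1 - |T|` remaining `R j` is not in it, and adding it to `T` lowers the
dimension by one.  `l(W - Z) ≤ g`, so at most `g` steps; complete `T` arbitrarily to `g` elements. -/
theorem exists_nonspecial_translate (R : Fin (2 * genusFF K F - 1) → Place K F)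
    (hR : Function.Injective R) {Z : Divisor K F} (hZ : Divisor.degree Z = 0) :
    ∃ T : Finset (Fin (2 * genusFF K F - 1)), T.card = genusFF K F ∧
      RR.ell (Z + ∑ j ∈ T, Finsupp.single (R j) 1) = 1 := by
  classical
  obtain ⟨lam, W, hW⟩ := RR.exists_canonical (K := K) (F := F)
  have hdegW : Divisor.degree W = 2 * (genusFF K F : ℤ) - 2 := hW.degree_eq
  let E : Finset (Fin (2 * genusFF K F - 1)) → Divisor K F := fun T => ∑ j ∈ T, Finsupp.single (R j) 1
  have hdegE : ∀ T, Divisor.degree (E T) = T.card := fun T => degree_sum_single R T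
  have key : ∀ k : ℕ, k ≤ genusFF K F → ∃ T : Finset (Fin (2 * genusFF K F - 1)), T.card = k ∧
      RR.ell (W - Z - E T) + k ≤ genusFF K F := by
    intro k
    induction k with
    | zero =>
      intro _
      refine ⟨∅, rfl, ?_⟩
      have h1 := hW.rr Z
      have h2 := RR.ell_le_degree_add_one (D := Z) (by rw [hZ])
      have h3 : E ∅ = 0 := rfl
      rw [h3, sub_zero]
      rw [hZ] at h1 h2
      omega
    | succ k ih =>
      intro hk
      obtain ⟨T, hTc, hT⟩ := ih (by omega)
      have hcompl : (Tᶜ).card = 2 * genusFF K F - 1 - k := by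
        rw [Finset.card_compl, Fintype.card_fin, hTc]
      have hins : ∀ j, j ∉ T → W - Z - E (insert j T) = W - Z - E T - Finsupp.single (R j) 1 := by
        intro j hj
        change W - Z - ∑ i ∈ insert j T, Finsupp.single (R i) 1 = _
        rw [Finset.sum_insert hj]
        change W - Z - (_ + E T) = _
        abel
      have hle : ∀ j, W - Z - E T - Finsupp.single (R j) 1 ≤ W - Z - E T := by
        intro j
        rw [sub_le_self_iff]
        intro v
        by_cases hv : v = R j
        · subst hv; simp
        · simp [Finsupp.single_eq_of_ne hv]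
      by_cases h0 : RR.ell (W - Z - E T) = 0
      · have hne : (Tᶜ).Nonempty := by
          rw [← Finset.card_pos, hcompl]
          omega
        obtain ⟨j, hj⟩ := hne
        rw [Finset.mem_compl] at hj
        refine ⟨insert j T, by rw [Finset.card_insert_of_notMem hj, hTc], ?_⟩
        rw [hins j hj]
        have := RR.ell_mono (hle j)
        omega
      · obtain ⟨f, hf0, hf⟩ := RR.ell_pos_iff.mp (Nat.pos_of_ne_zero h0)
        have hG := (RR.mem_riemannRochSpace_iff_divOf hf0).mp hf
        set G := RR.divOf K f + (W - Z - E T) with hGdef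
        have hdegG : Divisor.degree G = 2 * (genusFF K F : ℤ) - 2 - k := by
          rw [hGdef, map_add, RR.degree_divOf, map_sub, map_sub, hdegW, hZ, hdegE, hTc]
          ring
        have hex : ∃ j ∈ Tᶜ, G (R j) = 0 := by
          by_contra hcon
          push Not at hcon
          have h1 := card_le_degree R hR hG Tᶜ (fun j hj => by
            have h2 := hcon j hj
            have h3 : 0 ≤ G (R j) := hG (R j)
            omega)
          rw [hcompl, hdegG] at h1
          omega
        obtain ⟨j, hj, hGj⟩ := hex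
        rw [Finset.mem_compl] at hj
        refine ⟨insert j T, by rw [Finset.card_insert_of_notMem hj, hTc], ?_⟩
        rw [hins j hj]
        have hlt : riemannRochSpace (W - Z - E T - Finsupp.single (R j) 1) <
            riemannRochSpace (W - Z - E T) := by
          refine lt_of_le_of_ne (RR.riemannRochSpace_mono (hle j)) fun heq => ?_
          have hf' : f ∈ riemannRochSpace (W - Z - E T - Finsupp.single (R j) 1) := heq ▸ hf
          rw [RR.mem_riemannRochSpace_iff_divOf hf0] at hf'
          have h1 := hf' (R j)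
          rw [← add_sub_assoc, Finsupp.sub_apply, Finsupp.single_eq_same] at h1
          change (0 : ℤ) ≤ G (R j) - 1 at h1
          omega
        have := Submodule.finrank_lt_finrank_of_lt hlt
        change RR.ell _ < RR.ell _ at this
        omega
  obtain ⟨T, hTc, hT⟩ := key (genusFF K F) le_rfl
  refine ⟨T, hTc, ?_⟩
  have h1 := hW.rr (Z + E T)
  rw [map_add, hZ, hdegE, hTc] at h1
  have h2 : W - (Z + E T) = W - Z - E T := by abel
  rw [h2] at h1
  change RR.ell (Z + E T) = 1
  omega

/-- a non special effective divisor of degree `g` : no differential vanishes on it. -/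
theorem ell_canonical_sub_eq_zero {lam : Module.Dual K (RR.Adele K F)} {W : Divisor K F}
    (hW : RR.IsCanonical lam W) {D : Divisor K F} (hdeg : Divisor.degree D = genusFF K F)
    (hD : RR.ell D = 1) : RR.ell (W - D) = 0 := by
  have h1 := hW.rr D
  rw [hdeg, hD] at h1
  omega

end Fermat.Agent.S17.Quad
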