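import Fermat.Agent.S17.Quad.Abstract
import Fermat.Agent.S17.Quad.RR
import Fermat.Prelude.Def_AlgebraicCurve_BaseChangeGalois

/-!
# S17 / Quad 3 : the height half of Mordell-Weil from the estimates `(QB)`, `(NS)` (route independent)
-/

set_option autoImplicit false
set_option linter.unusedSectionVars false

open AlgebraicCurve

namespace Fermat.Agent.S17.Quad

open S27

/-- `ℚ̄`. -/
local notation "Qb" => AlgebraicClosure ℚ
/-- the absolute Galois group of `ℚ`. -/
local notation "GQ" => (AlgebraicClosure ℚ ≃ₐ[ℚ] AlgebraicClosure ℚ)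

section Aux

variable {K F : Type*} [Field K] [Field F] [Algebra K F] [IsAlgClosed K] [CharZero K] [IsFF K F]

/-- the size of an effective divisor is its degree. -/
theorem nrm_of_nonneg {D : Divisor K F} (hD : 0 ≤ D) : (nrm D : ℤ) = Divisor.degree D := by
  rw [degree_eq_sum D D.support subset_rfl, nrm, Finsupp.sum, Nat.cast_sum]
  refine Finset.sum_congr rfl fun v _ => ?_
  exact Int.natAbs_of_nonneg (hD v)

theorem nrm_le_of_nonneg {D : Divisor K F} (hD : 0 ≤ D) {n : ℕ} (hn : Divisor.degree D = n) :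
    nrm D ≤ n := by
  have := nrm_of_nonneg hD
  omega

theorem card_support_le_of_nonneg {D : Divisor K F} (hD : 0 ≤ D) {n : ℕ}
    (hn : Divisor.degree D = n) : D.support.card ≤ n := by
  rw [degree_eq_sum D D.support subset_rfl] at hn
  have h1 : ∑ _v ∈ D.support, (1 : ℤ) ≤ ∑ v ∈ D.support, D v := by
    refine Finset.sum_le_sum fun v hv => ?_
    have h0 : 0 ≤ D v := hD v
    have h1 : D v ≠ 0 := Finsupp.mem_support_iff.mp hv
    omega
  rw [Finset.sum_const, nsmul_eq_mul, mul_one, hn] at h1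
  exact_mod_cast h1

/-- the sum of the places `R j`, `j ∈ T`. -/
noncomputable def sumT {ι : Type*} (R : ι → Place K F) (T : Finset ι) : Divisor K F :=
  ∑ j ∈ T, Finsupp.single (R j) 1

theorem sumT_nonneg {ι : Type*} (R : ι → Place K F) (T : Finset ι) : 0 ≤ sumT R T :=
  Finset.sum_nonneg fun _ _ => Finsupp.single_nonneg.mpr zero_le_one

theorem degree_sumT {ι : Type*} (R : ι → Place K F) (T : Finset ι) :
    Divisor.degree (sumT R T) = T.card := by
  rw [sumT, map_sum, Finset.sum_congr rfl fun j _ => degree_single_one (R j)]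
  simp

/-- finitely many effective divisors of given degree supported in a finite set. -/
theorem finite_effective_of_support {S : Set (Place K F)} (hS : S.Finite) (n : ℕ) :
    {D : Divisor K F | 0 ≤ D ∧ Divisor.degree D = n ∧ ∀ P ∈ D.support, P ∈ S}.Finite := by
  have : Finite S := hS
  refine (Set.finite_range fun p : Fin n → S => sumDiv fun j => (p j : Place K F)).subset ?_
  rintro D ⟨hD, hdeg, hsupp⟩
  obtain ⟨R, rfl⟩ := NS.exists_eq_sumDiv n D hD hdeg
  have hR : ∀ j, R j ∈ S := by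
    intro j
    apply hsupp
    rw [Finsupp.mem_support_iff]
    have := NS.one_le_sumDiv_apply R j
    omega
  exact ⟨fun j => ⟨R j, hR j⟩, rfl⟩

/-- every class is the class of `D - E_T` with `D` effective non special of degree `g`. -/
theorem exists_nonspecial_rep (R : Fin (2 * genusFF K F - 1) → Place K F)
    (hR : Function.Injective R) (x : Pic0 K F) :
    ∃ (T : Finset (Fin (2 * genusFF K F - 1))) (D : Divisor K F), T.card = genusFF K F ∧ 0 ≤ D ∧
      Divisor.degree D = genusFF K F ∧ RR.ell D = 1 ∧ x = dcl (D - sumT R T) := by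
  obtain ⟨Z, hZ, rfl⟩ := dcl_surjective x
  obtain ⟨T, hT, hell⟩ := exists_nonspecial_translate R hR hZ
  have hdeg : Divisor.degree (Z + sumT R T) = genusFF K F := by
    rw [map_add, hZ, degree_sumT, hT, zero_add]
  obtain ⟨D, hD, hlin⟩ := exists_effective_linEq (Z := Z + sumT R T) hdeg.ge
  have hdD : Divisor.degree D = genusFF K F := by rw [hlin.degree_eq, hdeg]
  refine ⟨T, D, hT, hD, hdD, ?_, ?_⟩
  · rw [ell_eq_of_linEq hlin]
    exact hell
  · have h0 : Divisor.degree (D - sumT R T) = 0 := by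
      rw [map_sub, hdD, degree_sumT, hT, sub_self]
    rw [← sub_eq_zero, ← dcl_sub hZ h0, dcl_eq_zero_iff (by rw [map_sub, hZ, h0, sub_self])]
    have : Z - (D - sumT R T) = -(D - (Z + sumT R T)) := by abel
    rw [this]
    exact neg_mem hlin

theorem smul_nonneg_divisor (g : SemilinearAut K F) {D : Divisor K F} (hD : 0 ≤ D) :
    0 ≤ g • D := by
  intro w
  rw [SemilinearAut.divisor_smul_apply]
  exact hD _

theorem smul_dcl (g : SemilinearAut K F) (D : Divisor K F) : g • dcl D = dcl (g • D) := by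
  by_cases hD : Divisor.degree D = 0
  · rw [dcl_of_degree hD, dcl_of_degree (by rw [SemilinearAut.degree_smul, hD]),
      SemilinearAut.pic0_smul_mk]
    rfl
  · rw [dcl_of_degree_ne hD, dcl_of_degree_ne (by rwa [SemilinearAut.degree_smul])]
    exact smul_zero (A := Pic0 K F) g

theorem smul_sumT {ι : Type*} (g : SemilinearAut K F) (R : ι → Place K F) (T : Finset ι)
    (hg : ∀ j, g • R j = R j) : g • sumT R T = sumT R T := by
  rw [sumT, Finset.smul_sum]
  refine Finset.sum_congr rfl fun j _ => ?_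
  rw [SemilinearAut.smul_single, hg]

/-- a non special effective divisor whose class (relative to a fixed `E`) is invariant, is
invariant. -/
theorem smul_eq_self_of_invariant (g : SemilinearAut K F) {D E : Divisor K F} (hD : 0 ≤ D)
    (hdeg : Divisor.degree D = Divisor.degree E) (hell : RR.ell D = 1) (hE : g • E = E)
    (hx : g • dcl (D - E) = dcl (D - E)) : g • D = D := by
  have h0 : Divisor.degree (D - E) = 0 := by rw [map_sub, hdeg, sub_self]
  have h1 : Divisor.degree (g • D - E) = 0 := by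
    rw [map_sub, SemilinearAut.degree_smul, hdeg, sub_self]
  rw [smul_dcl, smul_sub, hE, ← sub_eq_zero, ← dcl_sub h1 h0,
    dcl_eq_zero_iff (by rw [map_sub, h1, h0, sub_self]), sub_sub_sub_cancel_right] at hx
  exact effective_unique hell (smul_nonneg_divisor g hD) hD hx (LinEq.refl D)

end Aux

/-- a bound for the orbits of the elements of a finite set stable under the common stabiliser of
finitely many elements with finite orbits. -/
theorem exists_orbit_bound {G A X ι : Type*} [Group G] [Group A] [MulAction A X] [Finite ι]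
    (ρ : G →* A) (R : ι → X) (hfo : ∀ j, (Set.range fun σ : G => ρ σ • R j).Finite) :
    ∃ m : ℕ, ∀ S : Finset X, (∀ σ : G, (∀ j, ρ σ • R j = R j) → ∀ P ∈ S, ρ σ • P ∈ S) →
      ∀ P ∈ S, (Set.range fun σ : G => ρ σ • P).ncard ≤ m * S.card := by
  classical
  set Φ : G → ι → X := fun σ j => ρ σ • R j with hΦ
  have hfin : (Set.range Φ).Finite := by
    refine (Set.Finite.pi' hfo).subset ?_
    rintro _ ⟨σ, rfl⟩ j
    exact ⟨σ, rfl⟩
  have hsec : ∀ y : Set.range Φ, ∃ σ : G, Φ σ = y := fun y => y.2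
  choose s hs using hsec
  have : Fintype (Set.range Φ) := hfin.fintype
  refine ⟨Fintype.card (Set.range Φ), fun S hS P hP => ?_⟩
  have hsub : (Set.range fun σ : G => ρ σ • P) ⊆
      ↑((Finset.univ : Finset (Set.range Φ)).biUnion fun y => S.image fun Q => ρ (s y) • Q) := by
    rintro _ ⟨σ, rfl⟩
    set y : Set.range Φ := ⟨Φ σ, σ, rfl⟩ with hy
    have hfix : ∀ j, ρ ((s y)⁻¹ * σ) • R j = R j := by
      intro j
      have h1 : ρ (s y) • R j = ρ σ • R j := congrFun (hs y) j
      rw [map_mul, mul_smul, ← h1, map_inv, inv_smul_smul]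
    rw [Finset.coe_biUnion, Set.mem_iUnion₂]
    refine ⟨y, Finset.mem_coe.mpr (Finset.mem_univ _), ?_⟩
    rw [Finset.mem_coe, Finset.mem_image]
    refine ⟨ρ ((s y)⁻¹ * σ) • P, hS _ hfix P hP, ?_⟩
    rw [map_mul, mul_smul, map_inv, smul_inv_smul]
  calc (Set.range fun σ : G => ρ σ • P).ncard
      ≤ (↑((Finset.univ : Finset (Set.range Φ)).biUnion
          fun y => S.image fun Q => ρ (s y) • Q) : Set X).ncard :=
        Set.ncard_le_ncard hsub (Finset.finite_toSet _)
    _ = ((Finset.univ : Finset (Set.range Φ)).biUnion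
          fun y => S.image fun Q => ρ (s y) • Q).card := Set.ncard_coe_finset _
    _ ≤ ∑ y : Set.range Φ, (S.image fun Q => ρ (s y) • Q).card := Finset.card_biUnion_le
    _ ≤ ∑ _y : Set.range Φ, S.card := Finset.sum_le_sum fun y _ => Finset.card_image_le
    _ = Fintype.card (Set.range Φ) * S.card := by
        rw [Finset.sum_const, Finset.card_univ, smul_eq_mul]

/-- **route independent final assembly of the height half.**

* `Bt` : symmetric function on pairs of places (`= h_Δ`), `pair Bt` its bilinear extension to divisors;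
* `(QB)` : `pair Bt A B = O(1)` for `A` principal, `deg B = 0`, of size `≤ 6 g`, `≤ 4 g`;
* `h ≥ 0` : a height on places with the Northcott property for places with bounded Galois orbit;
* `(NS)` : for `E ≥ 0` of degree `g` fixed and all non special `D ≥ 0` of degree `g` :
  `- pair Bt (D - E) (D - E) ≥ ε ∑_{P ∈ D} h P - C`.

Proof.  (1) `q₀` from `exists_quasi_quadratic` (`D0 = degZero`, `cl = Pic0.mk`, `n₀ = 2 g`).
(2) fix `2 g - 1` distinct places `R j`; `E_T = ∑_{j ∈ T} R j`.
(3) for `x = cl Z` take `T` with `l(Z + E_T) = 1`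
(`exists_nonspecial_translate`), `D ≥ 0`, `D ∼ Z + E_T`; then `x = cl (D - E_T)`, so
`q₀ x ≥ - pair (D - E_T) (D - E_T) - C' ≥ ε ∑ h - C - C'`.  `q := q₀ + C + C'`.  (4) Northcott: let `H` be the
intersection of the stabilisers of the `R j`.  If `x` is Galois invariant and
`σ ∈ H` then `σ D ≥ 0` and `σ D ∼ D`, so `σ D = D` (`effective_unique`); so the orbit of `P ∈ D` has at most
`m g` elements and `h P ≤ (B + C'') / ε` : finitely many `P`, hence finitely many `D`, `T`, `x`. -/
theorem exists_quadratic_height_of_estimates {F : Type} [Field F] [Algebra Qb F] [IsFF Qb F]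
    (ρ : GQ →* SemilinearAut Qb F)
    (Bt : Place Qb F → Place Qb F → ℝ) (hsymm : ∀ P Q, Bt P Q = Bt Q P)
    (hQB : ∃ C : ℝ, ∀ A ∈ Divisor.principal (K := Qb) (F := F),
      ∀ B ∈ Divisor.degZero (K := Qb) (F := F), nrm A ≤ 6 * genusFF Qb F →
        nrm B ≤ 4 * genusFF Qb F → |pair Bt A B| ≤ C)
    (h : Place Qb F → ℝ) (h0 : ∀ P, 0 ≤ h P)
    (hfo : ∀ P : Place Qb F, (Set.range fun σ : GQ => ρ σ • P).Finite)
    (hNor : ∀ (d : ℕ) (B : ℝ),
      {P : Place Qb F | (Set.range fun σ : GQ => ρ σ • P).ncard ≤ d ∧ h P ≤ B}.Finite)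
    (hNS : ∀ E : Divisor Qb F, 0 ≤ E → Divisor.degree E = genusFF Qb F →
      ∃ C ε : ℝ, 0 < ε ∧ ∀ D : Divisor Qb F, 0 ≤ D → Divisor.degree D = genusFF Qb F →
        RR.ell D = 1 → ε * (D.sum fun P a => (a : ℝ) * h P) - C ≤ - pair Bt (D - E) (D - E)) :
    ∃ q : Pic0 Qb F → ℝ, (∀ x, 0 ≤ q x) ∧
      (∃ C : ℝ, ∀ x y, |q (x + y) + q (x - y) - 2 * (q x + q y)| ≤ C) ∧
      ∀ B : ℝ, {x : Pic0 Qb F | (∀ σ, ρ σ • x = x) ∧ q x ≤ B}.Finite := by
  classical
  set g := genusFF Qb F with hg
  have := infinite_places Qb F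
  obtain ⟨R, hR⟩ : ∃ R : Fin (2 * g - 1) → Place Qb F, Function.Injective R :=
    ⟨_, (Infinite.natEmbedding (Place Qb F)).injective.comp Fin.val_injective⟩
  have hrepNS := exists_nonspecial_rep R hR
  -- sizes
  have hsize : ∀ (T : Finset (Fin (2 * g - 1))) (D : Divisor Qb F), T.card = g → 0 ≤ D →
      Divisor.degree D = g → nrm (D - sumT R T) ≤ 2 * g := by
    intro T D hT hD hdeg
    have h1 := nrm_sub_le D (sumT R T)
    have h2 := nrm_le_of_nonneg hD hdeg
    have h3 := nrm_le_of_nonneg (sumT_nonneg R T) (by rw [degree_sumT, hT])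
    omega
  have hdeg0 : ∀ (T : Finset (Fin (2 * g - 1))) (D : Divisor Qb F), T.card = g →
      Divisor.degree D = g → Divisor.degree (D - sumT R T) = 0 := by
    intro T D hT hdeg
    rw [map_sub, hdeg, degree_sumT, hT, sub_self]
  -- step 1
  obtain ⟨q₀, ⟨C₁, hC₁⟩, C₂, hC₂⟩ := exists_quasi_quadratic Bt hsymm
    (Divisor.degZero (K := Qb) (F := F)) (Divisor.principal (K := Qb) (F := F))
    (QuotientAddGroup.mk' ((Divisor.principal (K := Qb) (F := F)).addSubgroupOf
      (Divisor.degZero (K := Qb) (F := F))))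
    (fun A => by
      rw [QuotientAddGroup.mk'_apply, QuotientAddGroup.eq_zero_iff,
        AddSubgroup.mem_addSubgroupOf])
    (2 * g)
    (fun x => by
      obtain ⟨T, D, hT, hD, hdeg, -, rfl⟩ := hrepNS x
      exact ⟨⟨D - sumT R T, hdeg0 T D hT hdeg⟩, hsize T D hT hD hdeg,
        (dcl_of_degree (hdeg0 T D hT hdeg)).symm⟩)
    (by
      obtain ⟨C, hC⟩ := hQB
      exact ⟨C, fun A hA B hB h1 h2 => hC A hA B hB (by omega) (by omega)⟩)
  -- step 2 : constants
  have hNS' : ∀ T : Finset (Fin (2 * g - 1)), ∃ C ε : ℝ, 0 < ε ∧ (T.card = g →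
      ∀ D : Divisor Qb F, 0 ≤ D → Divisor.degree D = g → RR.ell D = 1 →
        ε * (D.sum fun P a => (a : ℝ) * h P) - C ≤ - pair Bt (D - sumT R T) (D - sumT R T)) := by
    intro T
    by_cases hT : T.card = g
    · obtain ⟨C, ε, hε, hh⟩ := hNS (sumT R T) (sumT_nonneg R T) (by rw [degree_sumT, hT])
      exact ⟨C, ε, hε, fun _ => hh⟩
    · exact ⟨0, 1, one_pos, fun h => absurd h hT⟩
  choose CT ε hε hCT using hNS'
  -- the key inequality
  have hkey : ∀ (T : Finset (Fin (2 * g - 1))) (D : Divisor Qb F), T.card = g → 0 ≤ D →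
      Divisor.degree D = g → RR.ell D = 1 →
      ε T * (D.sum fun P a => (a : ℝ) * h P) ≤ q₀ (dcl (D - sumT R T)) + C₂ + CT T := by
    intro T D hT hD hdeg hell
    have h1 := hCT T hT D hD hdeg hell
    have h2 := hC₂ ⟨D - sumT R T, hdeg0 T D hT hdeg⟩ (by
      have := hsize T D hT hD hdeg
      show nrm (D - sumT R T) ≤ 2 * (2 * g)
      omega)
    have h3 : (QuotientAddGroup.mk' ((Divisor.principal (K := Qb) (F := F)).addSubgroupOf
        (Divisor.degZero (K := Qb) (F := F)))) ⟨D - sumT R T, hdeg0 T D hT hdeg⟩ =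
        dcl (D - sumT R T) := (dcl_of_degree (hdeg0 T D hT hdeg)).symm
    rw [h3] at h2
    have h4 := (abs_le.mp h2).1
    simp only at h4
    linarith
  have hsum0 : ∀ D : Divisor Qb F, 0 ≤ D → 0 ≤ D.sum fun P a => (a : ℝ) * h P := by
    intro D hD
    refine Finset.sum_nonneg fun P _ => mul_nonneg ?_ (h0 P)
    exact_mod_cast hD P
  set c : ℝ := C₂ + ∑ T : Finset (Fin (2 * g - 1)), |CT T| with hc
  have hCTle : ∀ T, CT T ≤ ∑ T : Finset (Fin (2 * g - 1)), |CT T| := by
    intro T
    refine (le_abs_self _).trans ?_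
    exact Finset.single_le_sum (f := fun T => |CT T|) (fun _ _ => abs_nonneg _) (Finset.mem_univ T)
  obtain ⟨m, hm⟩ := exists_orbit_bound ρ R (fun j => hfo (R j))
  refine ⟨fun x => q₀ x + c, ?_, ⟨C₁ + 2 * |c|, ?_⟩, ?_⟩
  · intro x
    obtain ⟨T, D, hT, hD, hdeg, hell, rfl⟩ := hrepNS x
    have h1 := hkey T D hT hD hdeg hell
    have h2 := mul_nonneg (hε T).le (hsum0 D hD)
    have h3 := hCTle T
    show 0 ≤ q₀ _ + c
    rw [hc]
    linarith
  · intro x y
    have h1 := hC₁ x y
    have e : q₀ (x + y) + c + (q₀ (x - y) + c) - 2 * (q₀ x + c + (q₀ y + c)) =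
        (q₀ (x + y) + q₀ (x - y) - 2 * (q₀ x + q₀ y)) + (-(2 * c)) := by ring
    show |q₀ (x + y) + c + (q₀ (x - y) + c) - 2 * (q₀ x + c + (q₀ y + c))| ≤ _
    rw [e]
    refine (abs_add_le _ _).trans ?_
    rw [abs_neg, abs_mul, abs_two]
    linarith
  · intro B
    -- for each `T` a finite set of divisors
    have hfinT : ∀ T : Finset (Fin (2 * g - 1)),
        ((fun D : Divisor Qb F => dcl (D - sumT R T)) ''
          {D : Divisor Qb F | 0 ≤ D ∧ Divisor.degree D = g ∧ ∀ P ∈ D.support,
            P ∈ {P : Place Qb F | (Set.range fun σ : GQ => ρ σ • P).ncard ≤ m * g ∧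
              h P ≤ (B - c + C₂ + CT T) / ε T}}).Finite :=
      fun T => (finite_effective_of_support (hNor _ _) g).image _
    refine (Set.finite_iUnion hfinT).subset ?_
    rintro x ⟨hinv, hqx⟩
    obtain ⟨T, D, hT, hD, hdeg, hell, rfl⟩ := hrepNS x
    rw [Set.mem_iUnion]
    refine ⟨T, D, ⟨hD, hdeg, fun P hP => ⟨?_, ?_⟩⟩, rfl⟩
    · -- the orbit
      have hstab : ∀ σ : GQ, (∀ j, ρ σ • R j = R j) → ∀ P ∈ D.support, ρ σ • P ∈ D.support := by
        intro σ hσ P hP
        have h1 : ρ σ • D = D := smul_eq_self_of_invariant (ρ σ) hD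
          (by rw [hdeg, degree_sumT, hT]) hell (smul_sumT (ρ σ) R T hσ) (hinv σ)
        rw [Finsupp.mem_support_iff] at hP ⊢
        rw [← h1, SemilinearAut.divisor_smul_apply_smul]
        exact hP
      refine (hm D.support hstab P hP).trans ?_
      exact Nat.mul_le_mul_left m (card_support_le_of_nonneg hD hdeg)
    · -- the height
      have h1 := hkey T D hT hD hdeg hell
      have h2 : h P ≤ D.sum fun P a => (a : ℝ) * h P := by
        have h3 : (D P : ℝ) * h P ≤ D.sum fun P a => (a : ℝ) * h P :=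
          Finset.single_le_sum (f := fun P => (D P : ℝ) * h P)
            (fun Q _ => mul_nonneg (by exact_mod_cast hD Q) (h0 Q)) hP
        have h4 : (1 : ℝ) ≤ D P := by
          have h5 : 0 ≤ D P := hD P
          have h6 : D P ≠ 0 := Finsupp.mem_support_iff.mp hP
          have h7 : (1 : ℤ) ≤ D P := by omega
          exact_mod_cast h7
        nlinarith [h0 P]
      rw [le_div_iff₀ (hε T)]
      have h3 : h P * ε T ≤ ε T * D.sum fun P a => (a : ℝ) * h P := by
        rw [mul_comm]
        exact mul_le_mul_of_nonneg_left h2 (hε T).le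
      have h4 : q₀ (dcl (D - sumT R T)) + c ≤ B := hqx
      linarith

end Fermat.Agent.S17.Quad
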