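import Mathlib

/-!
# S17 / Quad 1 : from a quasi-invariant bilinear pairing on divisors to a quasi-quadratic function on
the class group (formal part, common to all routes)
-/

set_option autoImplicit false

namespace Fermat.Agent.S17.Quad

variable {X : Type*}

/-- the bilinear extension of `Bt : X → X → ℝ` to `X →₀ ℤ`. -/
noncomputable def pair (Bt : X → X → ℝ) (A B : X →₀ ℤ) : ℝ :=
  A.sum fun P a => B.sum fun Q b => (a : ℝ) * (b : ℝ) * Bt P Q

/-- the size of a divisor: sum of the absolute values of the coefficients. -/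
noncomputable def nrm (A : X →₀ ℤ) : ℕ := A.sum fun _ a => a.natAbs

theorem pair_zero_left (Bt : X → X → ℝ) (B : X →₀ ℤ) : pair Bt 0 B = 0 := by
  unfold pair
  exact Finsupp.sum_zero_index

theorem pair_zero_right (Bt : X → X → ℝ) (A : X →₀ ℤ) : pair Bt A 0 = 0 := by
  unfold pair
  simp

theorem pair_add_left (Bt : X → X → ℝ) (A A' B : X →₀ ℤ) :
    pair Bt (A + A') B = pair Bt A B + pair Bt A' B := by
  classical
  unfold pair
  rw [Finsupp.sum_add_index']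
  · intro P
    simp
  · intro P a a'
    simp only [Int.cast_add, add_mul]
    rw [Finsupp.sum_add]

theorem pair_add_right (Bt : X → X → ℝ) (A B B' : X →₀ ℤ) :
    pair Bt A (B + B') = pair Bt A B + pair Bt A B' := by
  classical
  unfold pair
  rw [← Finsupp.sum_add]
  refine Finsupp.sum_congr fun P _ => ?_
  rw [Finsupp.sum_add_index']
  · intro Q
    simp
  · intro Q b b'
    push_cast
    ring

theorem pair_neg_left (Bt : X → X → ℝ) (A B : X →₀ ℤ) : pair Bt (-A) B = - pair Bt A B := by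
  have h := pair_add_left Bt (-A) A B
  rw [neg_add_cancel, pair_zero_left] at h
  linarith

theorem pair_neg_right (Bt : X → X → ℝ) (A B : X →₀ ℤ) : pair Bt A (-B) = - pair Bt A B := by
  have h := pair_add_right Bt A (-B) B
  rw [neg_add_cancel, pair_zero_right] at h
  linarith

theorem pair_sub_left (Bt : X → X → ℝ) (A A' B : X →₀ ℤ) :
    pair Bt (A - A') B = pair Bt A B - pair Bt A' B := by
  rw [sub_eq_add_neg, pair_add_left, pair_neg_left, sub_eq_add_neg]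

theorem pair_sub_right (Bt : X → X → ℝ) (A B B' : X →₀ ℤ) :
    pair Bt A (B - B') = pair Bt A B - pair Bt A B' := by
  rw [sub_eq_add_neg, pair_add_right, pair_neg_right, sub_eq_add_neg]

theorem pair_comm {Bt : X → X → ℝ} (h : ∀ P Q, Bt P Q = Bt Q P) (A B : X →₀ ℤ) :
    pair Bt A B = pair Bt B A := by
  unfold pair
  rw [Finsupp.sum_comm]
  refine Finsupp.sum_congr fun Q _ => Finsupp.sum_congr fun P _ => ?_
  rw [h P Q]
  ring

theorem pair_single_single (Bt : X → X → ℝ) (P Q : X) (a b : ℤ) :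
    pair Bt (Finsupp.single P a) (Finsupp.single Q b) = a * b * Bt P Q := by
  unfold pair
  rw [Finsupp.sum_single_index (by simp), Finsupp.sum_single_index (by simp)]

theorem pair_finset_sum_left {ι : Type*} (Bt : X → X → ℝ) (s : Finset ι) (A : ι → X →₀ ℤ)
    (B : X →₀ ℤ) : pair Bt (∑ i ∈ s, A i) B = ∑ i ∈ s, pair Bt (A i) B := by
  classical
  induction s using Finset.induction_on with
  | empty => simp [pair_zero_left]
  | insert a s has ih => rw [Finset.sum_insert has, Finset.sum_insert has, pair_add_left, ih]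

theorem pair_finset_sum_right {ι : Type*} (Bt : X → X → ℝ) (s : Finset ι) (A : X →₀ ℤ)
    (B : ι → X →₀ ℤ) : pair Bt A (∑ i ∈ s, B i) = ∑ i ∈ s, pair Bt A (B i) := by
  classical
  induction s using Finset.induction_on with
  | empty => simp [pair_zero_right]
  | insert a s has ih => rw [Finset.sum_insert has, Finset.sum_insert has, pair_add_right, ih]

theorem pair_sum_single {ι κ : Type*} [Fintype ι] [Fintype κ] (Bt : X → X → ℝ) (P : ι → X)
    (Q : κ → X) :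
    pair Bt (∑ i, Finsupp.single (P i) 1) (∑ j, Finsupp.single (Q j) 1) =
      ∑ i, ∑ j, Bt (P i) (Q j) := by
  rw [pair_finset_sum_left]
  refine Finset.sum_congr rfl fun i _ => ?_
  rw [pair_finset_sum_right]
  refine Finset.sum_congr rfl fun j _ => ?_
  rw [pair_single_single]
  simp

theorem nrm_eq_sum_of_subset (A : X →₀ ℤ) (S : Finset X) (hS : A.support ⊆ S) :
    nrm A = ∑ P ∈ S, (A P).natAbs :=
  Finsupp.sum_of_support_subset A hS _ (fun _ _ => rfl)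

theorem nrm_add_le (A B : X →₀ ℤ) : nrm (A + B) ≤ nrm A + nrm B := by
  classical
  rw [nrm_eq_sum_of_subset (A + B) (A.support ∪ B.support) Finsupp.support_add,
    nrm_eq_sum_of_subset A (A.support ∪ B.support) Finset.subset_union_left,
    nrm_eq_sum_of_subset B (A.support ∪ B.support) Finset.subset_union_right,
    ← Finset.sum_add_distrib]
  exact Finset.sum_le_sum fun P _ => Int.natAbs_add_le _ _

theorem nrm_neg (A : X →₀ ℤ) : nrm (-A) = nrm A := by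
  unfold nrm
  rw [Finsupp.sum_neg_index (fun _ => rfl)]
  simp

theorem nrm_sub_le (A B : X →₀ ℤ) : nrm (A - B) ≤ nrm A + nrm B := by
  rw [sub_eq_add_neg, ← nrm_neg B]
  exact nrm_add_le _ _

theorem nrm_single (P : X) (a : ℤ) : nrm (Finsupp.single P a) = a.natAbs := by
  unfold nrm
  rw [Finsupp.sum_single_index rfl]

/-- **formal part.**  `D0` = divisors of degree `0`, `cl : D0 → J` additive, onto (with representatives
of bounded size), with kernel `Prin`; `(QB)` : the pairing of a principal divisor with a divisor of degree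
`0` is bounded in terms of the sizes.  Then `q (cl Z) := - pair Z Z` is well defined up to `O(1)` and
satisfies the parallelogram law up to `O(1)`.

Proof.  Choose `Z x` with `cl (Z x) = x`, `nrm (Z x) ≤ n₀`, `q x := - pair (Z x) (Z x)`.  If `cl Z = cl Z'`
then `pair Z Z - pair Z' Z' = pair (Z - Z') Z + pair Z' (Z - Z')` (use `pair_comm`).  Apply this to
`Z (x + y)` and `Z x + Z y`, `Z (x - y)` and `Z x - Z y`, and the exact parallelogram identity for `pair`. -/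
theorem exists_quasi_quadratic {J : Type*} [AddCommGroup J] (Bt : X → X → ℝ)
    (hsymm : ∀ P Q, Bt P Q = Bt Q P) (D0 Prin : AddSubgroup (X →₀ ℤ)) (cl : D0 →+ J)
    (hker : ∀ A : D0, cl A = 0 ↔ (A : X →₀ ℤ) ∈ Prin)
    (n₀ : ℕ) (hrep : ∀ x : J, ∃ Z : D0, nrm (Z : X →₀ ℤ) ≤ n₀ ∧ cl Z = x)
    (hQB : ∃ C : ℝ, ∀ A ∈ Prin, ∀ B ∈ D0, nrm A ≤ 3 * n₀ → nrm B ≤ 2 * n₀ → |pair Bt A B| ≤ C) :
    ∃ q : J → ℝ, (∃ C : ℝ, ∀ x y, |q (x + y) + q (x - y) - 2 * (q x + q y)| ≤ C) ∧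
      ∃ C : ℝ, ∀ Z : D0, nrm (Z : X →₀ ℤ) ≤ 2 * n₀ →
        |q (cl Z) + pair Bt (Z : X →₀ ℤ) (Z : X →₀ ℤ)| ≤ C := by
  choose Z hZn hZc using hrep
  obtain ⟨C, hC⟩ := hQB
  -- the key estimate
  have key : ∀ Z₁ Z₂ : D0, nrm (Z₁ : X →₀ ℤ) ≤ n₀ → nrm (Z₂ : X →₀ ℤ) ≤ 2 * n₀ →
      cl Z₁ = cl Z₂ →
      |pair Bt (Z₁ : X →₀ ℤ) (Z₁ : X →₀ ℤ) - pair Bt (Z₂ : X →₀ ℤ) (Z₂ : X →₀ ℤ)| ≤ 2 * C := by
    intro Z₁ Z₂ h1 h2 h12
    have hA : ((Z₁ : X →₀ ℤ) - (Z₂ : X →₀ ℤ)) ∈ Prin := by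
      have : cl (Z₁ - Z₂) = 0 := by rw [map_sub, h12, sub_self]
      exact (hker _).mp this
    have hAn : nrm ((Z₁ : X →₀ ℤ) - (Z₂ : X →₀ ℤ)) ≤ 3 * n₀ :=
      (nrm_sub_le _ _).trans (by omega)
    have e1 := hC _ hA _ Z₁.2 hAn (by omega)
    have e2 := hC _ hA _ Z₂.2 hAn (by omega)
    have e3 : pair Bt (Z₁ : X →₀ ℤ) (Z₁ : X →₀ ℤ) - pair Bt (Z₂ : X →₀ ℤ) (Z₂ : X →₀ ℤ) =
        pair Bt ((Z₁ : X →₀ ℤ) - (Z₂ : X →₀ ℤ)) Z₁ + pair Bt ((Z₁ : X →₀ ℤ) - (Z₂ : X →₀ ℤ)) Z₂ := by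
      rw [pair_sub_left, pair_sub_left, pair_comm hsymm (Z₂ : X →₀ ℤ) (Z₁ : X →₀ ℤ)]
      ring
    rw [e3]
    calc |pair Bt ((Z₁ : X →₀ ℤ) - (Z₂ : X →₀ ℤ)) Z₁ + pair Bt ((Z₁ : X →₀ ℤ) - (Z₂ : X →₀ ℤ)) Z₂|
        ≤ |pair Bt ((Z₁ : X →₀ ℤ) - (Z₂ : X →₀ ℤ)) Z₁|
          + |pair Bt ((Z₁ : X →₀ ℤ) - (Z₂ : X →₀ ℤ)) Z₂| := abs_add_le _ _
      _ ≤ 2 * C := by linarith
  refine ⟨fun x => - pair Bt (Z x : X →₀ ℤ) (Z x : X →₀ ℤ), ?_, ?_⟩
  · refine ⟨2 * (2 * C), fun x y => ?_⟩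
    have hx := hZn x
    have hy := hZn y
    have e1 := key (Z (x + y)) (Z x + Z y) (hZn _)
      ((nrm_add_le _ _).trans (by omega)) (by rw [map_add, hZc, hZc, hZc])
    have e2 := key (Z (x - y)) (Z x - Z y) (hZn _)
      ((nrm_sub_le _ _).trans (by omega)) (by rw [map_sub, hZc, hZc, hZc])
    have e3 : pair Bt ((Z x + Z y : D0) : X →₀ ℤ) ((Z x + Z y : D0) : X →₀ ℤ) +
        pair Bt ((Z x - Z y : D0) : X →₀ ℤ) ((Z x - Z y : D0) : X →₀ ℤ) =
        2 * (pair Bt (Z x : X →₀ ℤ) (Z x : X →₀ ℤ) + pair Bt (Z y : X →₀ ℤ) (Z y : X →₀ ℤ)) := by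
      rw [AddSubgroup.coe_add, AddSubgroup.coe_sub]
      simp only [pair_add_left, pair_add_right, pair_sub_left, pair_sub_right]
      ring
    rw [abs_le] at e1 e2 ⊢
    constructor <;> linarith [e1.1, e1.2, e2.1, e2.2]
  · refine ⟨2 * C, fun W hW => ?_⟩
    have e1 := key (Z (cl W)) W (hZn _) hW (hZc _)
    have e2 : -pair Bt (Z (cl W) : X →₀ ℤ) (Z (cl W) : X →₀ ℤ) + pair Bt (W : X →₀ ℤ) (W : X →₀ ℤ)
        = -(pair Bt (Z (cl W) : X →₀ ℤ) (Z (cl W) : X →₀ ℤ) - pair Bt (W : X →₀ ℤ) (W : X →₀ ℤ)) := by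
      ring
    rw [e2, abs_neg]
    exact e1

end Fermat.Agent.S17.Quad
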